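import Fermat.Agent.S55.Local.H123.CycBasic

/-!
# S55, layer L, piece A4b: the standard cyclic 2-cocycle of `x` is a coboundary iff `x` is a norm

Deliverable: `Fermat.Agent.S55.Local.H123.cycCocycle_coboundary_iff :
  Fermat.Agent.S55.Local.CycCocycleCoboundaryIffStatement`.
-/

set_option autoImplicit false

namespace Fermat.Agent.S55.Local.H123

open groupCohomology Fermat.Agent.S55.Local Fermat.Agent.S55.Local.H593

section Norm

variable {G M : Type} [Group G] [CommGroup M] [MulDistribMulAction G M]

/-- Partial norms `P m = ∏_{k < m} σ ^ k • y`. -/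
def partNorm (σ : G) (y : M) (m : ℕ) : M := ∏ k ∈ Finset.range m, σ ^ k • y

@[simp] lemma partNorm_zero (σ : G) (y : M) : partNorm σ y 0 = 1 := by
  simp [partNorm]

lemma partNorm_succ (σ : G) (y : M) (m : ℕ) :
    partNorm σ y (m + 1) = partNorm σ y m * σ ^ m • y := by
  simp [partNorm, Finset.prod_range_succ]

lemma partNorm_add (σ : G) (y : M) (i j : ℕ) :
    partNorm σ y (i + j) = partNorm σ y i * σ ^ i • partNorm σ y j := by
  unfold partNorm
  rw [Finset.prod_range_add, Finset.smul_prod']
  congr 1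
  refine Finset.prod_congr rfl fun k _ => ?_
  rw [pow_add, mul_smul]

omit [MulDistribMulAction G M] in
/-- The norm over a finite cyclic group as a product over exponents. -/
lemma prod_univ_eq_prod_range [Fintype G] {σ : G} (hσ : ∀ g, g ∈ Subgroup.zpowers σ)
    (f : G → M) : ∏ g : G, f g = ∏ k ∈ Finset.range (Nat.card G), f (σ ^ k) := by
  classical
  rw [← IsCyclic.image_range_card hσ, Finset.prod_image]
  intro a ha b hb hab
  rw [← orderOf_eq_card_of_gen hσ] at ha hb
  exact pow_injOn_Iio_orderOf (by simpa using ha) (by simpa using hb) hab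

lemma partNorm_card [Fintype G] {σ : G} (hσ : ∀ g, g ∈ Subgroup.zpowers σ) (y : M) :
    partNorm σ y (Nat.card G) = ∏ g : G, g • y :=
  (prod_univ_eq_prod_range hσ (fun g => g • y)).symm

lemma pow_card_gen [Finite G] {σ : G} (hσ : ∀ g, g ∈ Subgroup.zpowers σ) :
    σ ^ Nat.card G = 1 := by
  rw [← orderOf_eq_card_of_gen hσ]
  exact pow_orderOf_eq_one σ

lemma partNorm_mul_card_add [Fintype G] {σ : G} (hσ : ∀ g, g ∈ Subgroup.zpowers σ) (y : M)
    (q r : ℕ) :
    partNorm σ y (Nat.card G * q + r) = (∏ g : G, g • y) ^ q * partNorm σ y r := by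
  induction q with
  | zero => simp
  | succ q ih =>
    have : Nat.card G * (q + 1) + r = Nat.card G + (Nat.card G * q + r) := by ring
    rw [this, partNorm_add, pow_card_gen hσ, one_smul, ih, partNorm_card hσ, pow_succ]
    apply Additive.ofMul.injective
    simp only [ofMul_mul]
    abel

lemma partNorm_eq [Fintype G] {σ : G} (hσ : ∀ g, g ∈ Subgroup.zpowers σ) (y : M) (a : ℕ) :
    partNorm σ y a = (∏ g : G, g • y) ^ (a / Nat.card G) * partNorm σ y (a % Nat.card G) := by
  conv_lhs => rw [← Nat.div_add_mod a (Nat.card G)]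
  exact partNorm_mul_card_add hσ y _ _

end Norm

/-- `cycIdx σ σ = 1` when the group has at least two elements. -/
lemma cycIdx_gen {G : Type} [Group G] [Finite G] {σ : G} (hσ : ∀ g, g ∈ Subgroup.zpowers σ)
    (hn : 2 ≤ Nat.card G) : cycIdx σ σ = 1 := by
  have := cycIdx_pow hσ 1
  rw [pow_one, Nat.mod_eq_of_lt hn] at this
  exact this

lemma cycIdx_pow_of_lt {G : Type} [Group G] [Finite G] {σ : G}
    (hσ : ∀ g, g ∈ Subgroup.zpowers σ) {k : ℕ} (hk : k < Nat.card G) :
    cycIdx σ (σ ^ k) = k := by
  rw [cycIdx_pow hσ, Nat.mod_eq_of_lt hk]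

/-- **(A4b)** The standard cyclic 2-cocycle of `x` is a coboundary iff `x` is a norm. -/
theorem cycCocycle_coboundary_iff : CycCocycleCoboundaryIffStatement := by
  intro G M _ _ _ _ σ hσ x hx
  constructor
  · rintro ⟨b, hb⟩
    by_cases hn : 2 ≤ Nat.card G
    · refine ⟨b σ, ?_⟩
      rw [prod_univ_eq_prod_range hσ]
      have hk : ∀ k ∈ Finset.range (Nat.card G),
          σ ^ k • b σ = x ^ ((k + 1) / Nat.card G) * (b (σ ^ (k + 1)) / b (σ ^ k)) := by
        intro k hk
        have hk' : k < Nat.card G := Finset.mem_range.1 hk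
        have h1 := hb (σ ^ k) σ
        simp only [cycCocycle] at h1
        rw [cycIdx_pow_of_lt hσ hk', cycIdx_gen hσ hn, ← pow_succ] at h1
        rw [← h1]
        apply Additive.ofMul.injective
        simp only [ofMul_mul, ofMul_div]
        abel
      rw [Finset.prod_congr rfl hk, Finset.prod_mul_distrib,
        Finset.prod_range_div (fun k => b (σ ^ k)),
        pow_card_gen hσ, pow_zero, div_self', mul_one, Finset.prod_pow_eq_pow_sum]
      have hsum : ∑ k ∈ Finset.range (Nat.card G), (k + 1) / Nat.card G = 1 := by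
        obtain ⟨m, hm⟩ : ∃ m, Nat.card G = m + 1 := ⟨Nat.card G - 1, by omega⟩
        rw [hm, Finset.sum_range_succ, Nat.div_self (Nat.succ_pos m)]
        have : ∀ k ∈ Finset.range m, (k + 1) / (m + 1) = 0 := by
          intro k hk
          have := Finset.mem_range.1 hk
          exact Nat.div_eq_of_lt (by omega)
        rw [Finset.sum_eq_zero this]
      rw [hsum, pow_one]
    · refine ⟨x, ?_⟩
      have h1 : Nat.card G = 1 := by
        have : 0 < Nat.card G := Nat.card_pos
        omega
      rw [prod_univ_eq_prod_range hσ, h1]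
      simp
  · rintro ⟨y, rfl⟩
    refine ⟨fun g => partNorm σ y (cycIdx σ g), fun g h => ?_⟩
    simp only [cycCocycle]
    have e1 : g • partNorm σ y (cycIdx σ h) * partNorm σ y (cycIdx σ g) =
        partNorm σ y (cycIdx σ g + cycIdx σ h) := by
      rw [partNorm_add, mul_comm]
      congr 2
      exact (pow_cycIdx hσ g).symm
    have e2 := partNorm_eq hσ y (cycIdx σ g + cycIdx σ h)
    rw [← cycIdx_mul hσ g h] at e2
    rw [div_mul_eq_mul_div, e1, e2, mul_div_assoc, div_self', mul_one]

end Fermat.Agent.S55.Local.H123
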