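import Fermat.Agent.S55.Local.H123.A4b

/-!
# S55, layer L, piece A4c: every 2-cocycle of a finite cyclic group is cohomologous to a
standard one

Deliverable: `Fermat.Agent.S55.Local.H123.cycCocycle_surj :
  Fermat.Agent.S55.Local.CycCocycleSurjStatement`.

For a 2-cocycle `c` (not necessarily normalised) put `u = c (1, 1)`,
`w k = c (σ ^ k, σ) / σ ^ k • u`, `W m = ∏_{k < m} w k`, `x = W n` and `b g = u / W (cycIdx σ g)`.
Then `σ • x = x` and `c = cycCocycle σ x * dMul b`.
-/

set_option autoImplicit false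

namespace Fermat.Agent.S55.Local.H123

open groupCohomology Fermat.Agent.S55.Local Fermat.Agent.S55.Local.H593

section

variable {G M : Type} [Group G] [CommGroup M] [MulDistribMulAction G M]

/-- `w k = c (σ ^ k, σ) / σ ^ k • c (1, 1)`. -/
def wFun (c : G × G → M) (σ : G) (k : ℕ) : M := c (σ ^ k, σ) / σ ^ k • c (1, 1)

/-- `W m = ∏_{k < m} w k`. -/
def WFun (c : G × G → M) (σ : G) (m : ℕ) : M := ∏ k ∈ Finset.range m, wFun c σ k

@[simp] lemma WFun_zero (c : G × G → M) (σ : G) : WFun c σ 0 = 1 := by simp [WFun]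

lemma WFun_succ (c : G × G → M) (σ : G) (m : ℕ) :
    WFun c σ (m + 1) = WFun c σ m * wFun c σ m := by
  simp [WFun, Finset.prod_range_succ]

lemma wFun_zero {c : G × G → M} (hc : IsMulCocycle₂ c) (σ : G) : wFun c σ 0 = 1 := by
  simp [wFun, map_one_fst_of_isMulCocycle₂ hc σ]

lemma wFun_card [Finite G] {σ : G} (hσ : ∀ g, g ∈ Subgroup.zpowers σ) (c : G × G → M) :
    wFun c σ (Nat.card G) = wFun c σ 0 := by
  simp only [wFun, pow_card_gen hσ, pow_zero]

lemma smul_wFun {c : G × G → M} (hc : IsMulCocycle₂ c) (σ : G) (k : ℕ) :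
    σ • wFun c σ k = wFun c σ (k + 1) * (c (σ, σ ^ k) / c (σ, σ ^ (k + 1))) := by
  have h := hc σ (σ ^ k) σ
  rw [← pow_succ, ← pow_succ'] at h
  have h' : σ • c (σ ^ k, σ) = c (σ ^ (k + 1), σ) * c (σ, σ ^ k) / c (σ, σ ^ (k + 1)) := by
    rw [h, mul_div_cancel_right]
  simp only [wFun, smul_div', h', ← mul_smul, ← pow_succ']
  apply Additive.ofMul.injective
  simp only [ofMul_mul, ofMul_div]
  abel

lemma smul_WFun_card [Finite G] {σ : G} (hσ : ∀ g, g ∈ Subgroup.zpowers σ) {c : G × G → M}
    (hc : IsMulCocycle₂ c) : σ • WFun c σ (Nat.card G) = WFun c σ (Nat.card G) := by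
  have h1 : σ • WFun c σ (Nat.card G) =
      ∏ k ∈ Finset.range (Nat.card G),
        wFun c σ (k + 1) * (c (σ, σ ^ k) / c (σ, σ ^ (k + 1))) := by
    unfold WFun
    rw [Finset.smul_prod']
    exact Finset.prod_congr rfl fun k _ => smul_wFun hc σ k
  rw [h1, Finset.prod_mul_distrib, Finset.prod_range_div' (fun k => c (σ, σ ^ k)),
    pow_card_gen hσ, pow_zero, div_self', mul_one]
  have h2 : (∏ k ∈ Finset.range (Nat.card G), wFun c σ (k + 1)) * wFun c σ 0 =
      WFun c σ (Nat.card G) * wFun c σ 0 := by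
    rw [← Finset.prod_range_succ' (wFun c σ), Finset.prod_range_succ, wFun_card hσ]
    rfl
  exact mul_right_cancel h2

end

/-- **(A4c)** Every 2-cocycle of a finite cyclic group is cohomologous to a standard one. -/
theorem cycCocycle_surj : CycCocycleSurjStatement := by
  intro G M _ _ _ _ σ hσ c hc
  have hx : σ • WFun c σ (Nat.card G) = WFun c σ (Nat.card G) := smul_WFun_card hσ hc
  refine ⟨WFun c σ (Nat.card G), hx, ?_⟩
  rw [isMulCoboundary₂_iff]
  refine ⟨fun g => c (1, 1) / WFun c σ (cycIdx σ g), ?_⟩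
  have hcx : IsMulCocycle₂ (cycCocycle σ (WFun c σ (Nat.card G))) :=
    cycCocycle_isMulCocycle₂ G M σ hσ _ hx
  have h11 : c (1, 1) = cycCocycle σ (WFun c σ (Nat.card G)) (1, 1) *
      dMul (fun g => c (1, 1) / WFun c σ (cycIdx σ g)) (1, 1) := by
    simp [cycCocycle, dMul_apply, cycIdx_one]
  have key : c = fun p => cycCocycle σ (WFun c σ (Nat.card G)) p *
      dMul (fun g => c (1, 1) / WFun c σ (cycIdx σ g)) p := by
    refine eq_of_eq_on_gen hσ hc (isMulCocycle₂_mul hcx (isMulCocycle₂_dMul _)) h11 ?_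
    intro g
    by_cases hn : 2 ≤ Nat.card G
    · have hi : cycIdx σ g < Nat.card G := cycIdx_lt_card hσ g
      have hg : σ ^ cycIdx σ g = g := pow_cycIdx hσ g
      have hbσ : WFun c σ (cycIdx σ σ) = 1 := by
        rw [cycIdx_gen hσ hn, WFun_succ, WFun_zero, wFun_zero hc, mul_one]
      have hw : wFun c σ (cycIdx σ g) = c (g, σ) / g • c (1, 1) := by
        simp only [wFun, hg]
      simp only [cycCocycle, dMul_apply, hbσ, div_one]
      rw [cycIdx_mul hσ g σ, cycIdx_gen hσ hn]
      rcases Nat.lt_or_ge (cycIdx σ g + 1) (Nat.card G) with hlt | hge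
      · rw [Nat.div_eq_of_lt hlt, Nat.mod_eq_of_lt hlt, pow_zero, one_mul, WFun_succ, hw]
        apply Additive.ofMul.injective
        simp only [ofMul_mul, ofMul_div]
        abel
      · have heq : cycIdx σ g + 1 = Nat.card G := by omega
        have hW : WFun c σ (Nat.card G) = WFun c σ (cycIdx σ g) * (c (g, σ) / g • c (1, 1)) := by
          rw [← heq, WFun_succ, hw]
        rw [heq, Nat.div_self (by omega), Nat.mod_self, pow_one, WFun_zero, div_one]
        conv_rhs => rw [hW]
        apply Additive.ofMul.injective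
        simp only [ofMul_mul, ofMul_div]
        abel
    · have h1 : Nat.card G = 1 := by
        have : 0 < Nat.card G := Nat.card_pos
        omega
      have hsub : Subsingleton G := (Nat.card_eq_one_iff_unique.1 h1).1
      have e : (g, σ) = ((1 : G), (1 : G)) := by
        rw [Subsingleton.elim g 1, Subsingleton.elim σ 1]
      calc c (g, σ) = c (1, 1) := by rw [e]
        _ = _ := h11
        _ = _ := by rw [e]
  funext p
  have hp : c p = cycCocycle σ (WFun c σ (Nat.card G)) p *
      dMul (fun g => c (1, 1) / WFun c σ (cycIdx σ g)) p := congrFun key p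
  change c p / cycCocycle σ (WFun c σ (Nat.card G)) p =
    dMul (fun g => c (1, 1) / WFun c σ (cycIdx σ g)) p
  rw [div_eq_iff_eq_mul, mul_comm]
  exact hp

end Fermat.Agent.S55.Local.H123
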