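import Fermat.Agent.S55.Local.H593.CycCocycleA4a

/-!
# S55, layer L, tools for pieces A4b / A4c (cyclic 2-cocycles)

* `dMul b` : the multiplicative 2-coboundary of `b : G → M`, and it is a 2-cocycle;
* products / quotients of 2-cocycles are 2-cocycles;
* `eq_of_eq_on_gen`: two 2-cocycles of a cyclic group `⟨σ⟩` which agree on all `(g, σ)` and at
  `(1, 1)` are equal;
* `prod_univ_eq_prod_range`: `∏ g, g • y = ∏ k < n, σ ^ k • y`.
-/

set_option autoImplicit false

namespace Fermat.Agent.S55.Local.H123

open groupCohomology Fermat.Agent.S55.Local Fermat.Agent.S55.Local.H593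

section Basic

variable {G M : Type} [Group G] [CommGroup M] [MulDistribMulAction G M]

/-- The multiplicative 2-coboundary of a 1-cochain. -/
def dMul (b : G → M) : G × G → M := fun p => p.1 • b p.2 / b (p.1 * p.2) * b p.1

lemma dMul_apply (b : G → M) (g h : G) : dMul b (g, h) = g • b h / b (g * h) * b g := rfl

lemma isMulCoboundary₂_iff (c : G × G → M) : IsMulCoboundary₂ c ↔ ∃ b : G → M, c = dMul b := by
  constructor
  · rintro ⟨b, hb⟩
    exact ⟨b, funext fun p => (hb p.1 p.2).symm⟩
  · rintro ⟨b, rfl⟩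
    exact ⟨b, fun g h => rfl⟩

lemma isMulCocycle₂_dMul (b : G → M) : IsMulCocycle₂ (dMul b) := by
  intro g h j
  simp only [dMul_apply, smul_mul', smul_div', mul_smul, mul_assoc]
  apply Additive.ofMul.injective
  simp only [ofMul_mul, ofMul_div]
  abel

lemma isMulCocycle₂_mul {c c' : G × G → M} (hc : IsMulCocycle₂ c) (hc' : IsMulCocycle₂ c') :
    IsMulCocycle₂ (fun p => c p * c' p) := by
  intro g h j
  have h1 := hc g h j
  have h2 := hc' g h j
  simp only [smul_mul']
  calc c (g * h, j) * c' (g * h, j) * (c (g, h) * c' (g, h))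
      = (c (g * h, j) * c (g, h)) * (c' (g * h, j) * c' (g, h)) := by
        apply Additive.ofMul.injective
        simp only [ofMul_mul]
        abel
    _ = (g • c (h, j) * c (g, h * j)) * (g • c' (h, j) * c' (g, h * j)) := by rw [h1, h2]
    _ = _ := by
        apply Additive.ofMul.injective
        simp only [ofMul_mul]
        abel

lemma isMulCocycle₂_div {c c' : G × G → M} (hc : IsMulCocycle₂ c) (hc' : IsMulCocycle₂ c') :
    IsMulCocycle₂ (fun p => c p / c' p) := by
  intro g h j
  have h1 := hc g h j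
  have h2 := hc' g h j
  simp only [smul_div']
  calc c (g * h, j) / c' (g * h, j) * (c (g, h) / c' (g, h))
      = (c (g * h, j) * c (g, h)) / (c' (g * h, j) * c' (g, h)) := by
        apply Additive.ofMul.injective
        simp only [ofMul_mul, ofMul_div]
        abel
    _ = (g • c (h, j) * c (g, h * j)) / (g • c' (h, j) * c' (g, h * j)) := by rw [h1, h2]
    _ = _ := by
        apply Additive.ofMul.injective
        simp only [ofMul_mul, ofMul_div]
        abel

/-- Two 2-cocycles of a cyclic group `⟨σ⟩` which agree on all pairs `(g, σ)` and at `(1, 1)`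
are equal. -/
lemma eq_of_eq_on_gen [Finite G] {σ : G} (hσ : ∀ g, g ∈ Subgroup.zpowers σ)
    {c c' : G × G → M} (hc : IsMulCocycle₂ c) (hc' : IsMulCocycle₂ c')
    (h1 : c (1, 1) = c' (1, 1)) (hgen : ∀ g, c (g, σ) = c' (g, σ)) : c = c' := by
  have key : ∀ (j : ℕ) (g : G), c (g, σ ^ j) = c' (g, σ ^ j) := by
    intro j
    induction j with
    | zero =>
      intro g
      rw [pow_zero, map_one_snd_of_isMulCocycle₂ hc, map_one_snd_of_isMulCocycle₂ hc', h1]
    | succ j ih =>
      intro g
      have e1 := hc g (σ ^ j) σ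
      have e2 := hc' g (σ ^ j) σ
      rw [← pow_succ] at e1 e2
      have f1 : c (g, σ ^ (j + 1)) = c (g * σ ^ j, σ) * c (g, σ ^ j) / g • c (σ ^ j, σ) := by
        rw [e1, mul_div_cancel_left]
      have f2 : c' (g, σ ^ (j + 1)) = c' (g * σ ^ j, σ) * c' (g, σ ^ j) / g • c' (σ ^ j, σ) := by
        rw [e2, mul_div_cancel_left]
      rw [f1, f2, hgen, hgen, ih]
  funext ⟨g, h⟩
  rw [← pow_cycIdx hσ h]
  exact key _ g

end Basic

end Fermat.Agent.S55.Local.H123
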